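import Mathlib

/-!
# GATE-J / J1 / level 3 : `[SL₂(ℤ) : Γ₀(3)] ≤ 4`

via the injective map `SL₂(ℤ)/Γ₀(3) → ℙ¹(𝔽₃) ≃ Option (ZMod 3)`, `g ↦ (a : c)`.
-/

set_option autoImplicit false
open scoped MatrixGroups

namespace Fermat.Agent.GJ.Haupt3

theorem cross_of_ratio {F : Type*} [Field F] (a c a' c' : F) (hc : c ≠ 0) (hc' : c' ≠ 0)
    (h : a * c⁻¹ = a' * c'⁻¹) : a * c' = a' * c := by
  have e1 : (a * c⁻¹) * (c * c') = a * c' := by
    rw [mul_assoc, ← mul_assoc c⁻¹, inv_mul_cancel₀ hc, one_mul]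
  have e2 : (a' * c'⁻¹) * (c * c') = a' * c := by
    rw [mul_comm c c', mul_assoc, ← mul_assoc c'⁻¹, inv_mul_cancel₀ hc', one_mul]
  rw [← e1, h, e2]

/-- first column mod 3 as a point of `ℙ¹(𝔽₃)` -/
def projCol (g : SL(2, ℤ)) : Option (ZMod 3) :=
  if ((g 1 0 : ℤ) : ZMod 3) = 0 then none else some (((g 0 0 : ℤ) : ZMod 3) * ((g 1 0 : ℤ) : ZMod 3)⁻¹)

theorem rel_of_projCol_eq (g g' : SL(2, ℤ)) (h : projCol g = projCol g') :
    g⁻¹ * g' ∈ CongruenceSubgroup.Gamma0 3 := by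
  rw [CongruenceSubgroup.Gamma0_mem]
  rw [Matrix.SpecialLinearGroup.coe_mul, Matrix.SpecialLinearGroup.coe_inv,
    Matrix.mul_apply, Fin.sum_univ_two, Matrix.adjugate_fin_two]
  simp only [Matrix.of_apply, Matrix.cons_val_one, Matrix.cons_val_zero]
  push_cast
  have : Fact (Nat.Prime 3) := ⟨Nat.prime_three⟩
  unfold projCol at h
  by_cases hc : ((g 1 0 : ℤ) : ZMod 3) = 0
  · by_cases hc' : ((g' 1 0 : ℤ) : ZMod 3) = 0
    · rw [hc, hc']; ring
    · rw [if_pos hc, if_neg hc'] at h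
      exact absurd h (by simp)
  · by_cases hc' : ((g' 1 0 : ℤ) : ZMod 3) = 0
    · rw [if_neg hc, if_pos hc'] at h
      exact absurd h (by simp)
    · rw [if_neg hc, if_neg hc', Option.some_inj] at h
      have h2 : ((g 0 0 : ℤ) : ZMod 3) * ((g' 1 0 : ℤ) : ZMod 3)
          = ((g' 0 0 : ℤ) : ZMod 3) * ((g 1 0 : ℤ) : ZMod 3) := by
        exact cross_of_ratio (F := ZMod 3) _ _ _ _ hc hc' h
      linear_combination h2

theorem Gamma0_three_index_le : (CongruenceSubgroup.Gamma0 3).index ≤ 4 := by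
  rw [Subgroup.index_eq_card]
  have hinj : Function.Injective
      (fun q : SL(2, ℤ) ⧸ CongruenceSubgroup.Gamma0 3 => projCol q.out) := by
    intro q q' h
    have := rel_of_projCol_eq _ _ h
    rw [← QuotientGroup.eq] at this
    simpa using this
  calc Nat.card (SL(2, ℤ) ⧸ CongruenceSubgroup.Gamma0 3)
      ≤ Nat.card (Option (ZMod 3)) := Nat.card_le_card_of_injective _ hinj
    _ = 4 := by simp

end Fermat.Agent.GJ.Haupt3
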