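import Mathlib
import Fermat.Prelude.Thm_ModularForm_sturm_bound_Gamma0
import Fermat.Agent.GJ.J1.Haupt.Series
import Fermat.Agent.GJ.J1.Haupt.Forms
import Fermat.Agent.GJ.Haupt3.Index
import Fermat.Agent.S16.U2Seven.LevelOneSturm
import Fermat.Agent.S28.JFunction

/-!
# GATE-J / J1 / level 3 : the two weight-16 identities on `Γ₀(3)` by Sturm

With helper32's `K3 = 1 + 243 V3 σ - 3 σ`, `H3 = σ - V3 σ` (`σ = ∑ σ₃(n) Xⁿ`) in `ℤ⟦X⟧`:

* `A3 : X * dedekindEtaUnit * (K3 + 27 * H3) = K3 ^ 3 * H3`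
* `B3 : X ^ 3 * V3 dedekindEtaUnit * (K3 + 27 * H3) = K3 * H3 ^ 3`

Both sides are `q`-expansions of modular forms of weight 16 on `Γ₀(3)` (index `≤ 4`, Sturm bound
`5`), and the first six coefficients agree (`chk_A3`, `chk_B3`).
-/

set_option autoImplicit false

noncomputable section

namespace Fermat.Agent.GJ.Haupt3

open UpperHalfPlane ModularForm EisensteinSeries PowerSeries ModularCurve
open Fermat.Agent.S28 Fermat.Agent.S23 Fermat.Agent.GJ.J1.Haupt Fermat.Agent.S16.U2Seven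
open scoped MatrixGroups ModularForm Manifold

local notation "Δ" => ModularForm.discriminant

/-- Sturm at level 3, weight 16, for integral `q`-expansions. -/
theorem eq_zero_of_sturm3 {F : ℍ → ℂ} (hF : IsMF (G0 3) 16 F) (P : PowerSeries ℤ)
    (hq : qExpansion 1 F = toC P) (hP : cl 6 P = List.replicate 6 0) : P = 0 := by
  obtain ⟨F', rfl⟩ := hF
  have h0 : F' = 0 := by
    apply ModularForm.sturm_bound_Gamma0 3
    intro n hn
    have hidx := Gamma0_three_index_le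
    have hn5 : n < 6 := by
      have : ((16 : ℤ) * ((CongruenceSubgroup.Gamma0 3).index : ℤ)).toNat / 12 ≤ 5 := by omega
      omega
    rw [hq, coeff_toC, coeff_eq_zero_of_cl hP hn5, Int.cast_zero]
  have h1 : toC P = 0 := by
    rw [← hq, h0]
    exact qExpansion_zero 1
  ext n
  have := congrArg (coeff n) h1
  rw [coeff_toC, map_zero] at this
  rw [map_zero]
  exact_mod_cast this

theorem ofNat_ne_zero' {n : ℕ} [n.AtLeastTwo] : (OfNat.ofNat n : PowerSeries ℤ) ≠ 0 := by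
  intro h
  have := congrArg (constantCoeff (R := ℤ)) h
  rw [map_ofNat, map_zero] at this
  exact (NeZero.ne (OfNat.ofNat n : ℤ)) this

/-! ### the forms -/

/-- `E₄(3z)` -/
def e43 : ℍ → ℂ := Vd 3 (E₄ : ℍ → ℂ)

/-- `Δ(3z)` -/
def d3 : ℍ → ℂ := Vd 3 (Δ : ℍ → ℂ)

theorem isMF_disc : IsMF 𝒮ℒ 12 (Δ : ℍ → ℂ) := IsCF.isMF ⟨CuspForm.discriminant, rfl⟩

theorem isMF_e4 : IsMF (G0 3) 4 (E₄ : ℍ → ℂ) := isMF_E4.levelOne_to_G0
theorem isMF_e43 : IsMF (G0 3) 4 e43 := isMF_Vd 3 isMF_E4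
theorem isMF_d : IsMF (G0 3) 12 (Δ : ℍ → ℂ) := isMF_disc.levelOne_to_G0
theorem isMF_d3 : IsMF (G0 3) 12 d3 := isMF_Vd 3 isMF_disc

theorem qExp_e4 : qExpansion 1 (E₄ : ℍ → ℂ) = toC eisenstein4 := qExpansion_E4

theorem toC_V3 (f : PowerSeries ℤ) : toC (V3 f) = expand 3 three_ne_zero (toC f) := by
  rw [toC, toC]
  exact map_expand 3 three_ne_zero _ f

theorem qExp_e43 : qExpansion 1 e43 = toC (V3 eisenstein4) := by
  rw [e43, qExpansion_Vd 3 isMF_E4, qExp_e4, toC_V3]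

theorem qExp_d : qExpansion 1 (Δ : ℍ → ℂ) = toC (X * dedekindEtaUnit) := by
  rw [qExpansion_discriminant, toC_mul, toC_X]

theorem qExp_d3 : qExpansion 1 d3 = toC (X ^ 3 * V3 dedekindEtaUnit) := by
  rw [d3, qExpansion_Vd 3 isMF_disc, qExp_d, ← toC_V3]
  congr 1
  rw [map_mul, expand_X]

/-- `80 K3` -/
def aF : ℍ → ℂ := (81 : ℂ) • e43 - (E₄ : ℍ → ℂ)
/-- `240 H3` -/
def bF : ℍ → ℂ := (E₄ : ℍ → ℂ) - e43
/-- `10 (K3 + 27 H3)` -/
def wF : ℍ → ℂ := (E₄ : ℍ → ℂ) + (9 : ℂ) • e43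

theorem isMF_aF : IsMF (G0 3) 4 aF := (isMF_e43.smul 81).sub isMF_e4
theorem isMF_bF : IsMF (G0 3) 4 bF := isMF_e4.sub isMF_e43
theorem isMF_wF : IsMF (G0 3) 4 wF := isMF_e4.add (isMF_e43.smul 9)

theorem smul_toC (n : ℕ) [n.AtLeastTwo] (f : PowerSeries ℤ) :
    (OfNat.ofNat n : ℂ) • toC f = toC (OfNat.ofNat n * f) := by
  rw [toC_mul, show toC (OfNat.ofNat n) = (OfNat.ofNat n : PowerSeries ℂ) from map_ofNat _ n,
    ← map_ofNat (C (R := ℂ)) n, smul_eq_C_mul]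

theorem qExp_aF : qExpansion 1 aF = toC (80 * K3) := by
  rw [aF, qExp_sub ((isMF_e43.smul 81).nice) isMF_e4.nice, qExp_smul _ isMF_e43.nice, qExp_e43,
    qExp_e4, smul_toC, ← toC_sub]
  congr 1
  rw [V3_eisenstein4, eisenstein4_eq_three]; ring

theorem qExp_bF : qExpansion 1 bF = toC (240 * H3) := by
  rw [bF, qExp_sub isMF_e4.nice isMF_e43.nice, qExp_e43, qExp_e4, ← toC_sub]
  congr 1
  rw [V3_eisenstein4, eisenstein4_eq_three]; ring

theorem qExp_wF : qExpansion 1 wF = toC (10 * (K3 + 27 * H3)) := by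
  rw [wF, qExp_add isMF_e4.nice ((isMF_e43.smul 9).nice), qExp_smul _ isMF_e43.nice, qExp_e43,
    qExp_e4, smul_toC, ← toC_add]
  congr 1
  rw [V3_eisenstein4, eisenstein4_eq_three]; ring

/-! ### identity A -/

/-- `80³·240·(Δ w - K3³ H3)` -/
def formA : ℍ → ℂ := (12288000 : ℂ) • ((Δ : ℍ → ℂ) * wF) - aF ^ 3 * bF

theorem isMF_formA : IsMF (G0 3) 16 formA :=
  ((isMF_d.mul_cast isMF_wF (by norm_num)).smul _).sub
    ((isMF_aF.pow_cast 3 (c := 12) (by norm_num)).mul_cast isMF_bF (by norm_num))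

theorem qExp_formA : qExpansion 1 formA =
    toC (122880000 * (X * dedekindEtaUnit * (K3 + 27 * H3) - K3 ^ 3 * H3)) := by
  have n1 : Nice ((Δ : ℍ → ℂ) * wF) := isMF_d.nice.mul isMF_wF.nice
  have n2 : Nice (aF ^ 3 * bF) := (isMF_aF.nice.pow 3).mul isMF_bF.nice
  rw [formA, qExp_sub (n1.smul _) n2, qExp_smul _ n1, qExp_mul isMF_d.nice isMF_wF.nice,
    qExp_mul (isMF_aF.nice.pow 3) isMF_bF.nice, qExp_pow isMF_aF.nice, qExp_d, qExp_wF, qExp_aF,
    qExp_bF, ← toC_mul, smul_toC, ← toC_pow, ← toC_mul, ← toC_sub]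
  congr 1
  ring

theorem cl_formA : cl 6 (122880000 * (X * dedekindEtaUnit * (K3 + 27 * H3) - K3 ^ 3 * H3))
    = List.replicate 6 0 := by
  rw [cl_ofNat_mul, chk_A3]
  decide

/-- **Identity A at level 3.** -/
theorem A3 : X * dedekindEtaUnit * (K3 + 27 * H3) = K3 ^ 3 * H3 := by
  have h := eq_zero_of_sturm3 isMF_formA _ qExp_formA cl_formA
  rcases mul_eq_zero.mp h with h | h
  · exact absurd h ofNat_ne_zero'
  · exact sub_eq_zero.mp h

/-! ### identity B -/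

/-- `240³·80·(Δ(3z) w - K3 H3³)` -/
def formB : ℍ → ℂ := (110592000 : ℂ) • (d3 * wF) - aF * bF ^ 3

theorem isMF_formB : IsMF (G0 3) 16 formB :=
  ((isMF_d3.mul_cast isMF_wF (by norm_num)).smul _).sub
    (isMF_aF.mul_cast (isMF_bF.pow_cast 3 (c := 12) (by norm_num)) (by norm_num))

theorem qExp_formB : qExpansion 1 formB =
    toC (1105920000 * (X ^ 3 * V3 dedekindEtaUnit * (K3 + 27 * H3) - K3 * H3 ^ 3)) := by
  have n1 : Nice (d3 * wF) := isMF_d3.nice.mul isMF_wF.nice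
  have n2 : Nice (aF * bF ^ 3) := isMF_aF.nice.mul (isMF_bF.nice.pow 3)
  rw [formB, qExp_sub (n1.smul _) n2, qExp_smul _ n1, qExp_mul isMF_d3.nice isMF_wF.nice,
    qExp_mul isMF_aF.nice (isMF_bF.nice.pow 3), qExp_pow isMF_bF.nice, qExp_d3, qExp_wF, qExp_aF,
    qExp_bF, ← toC_mul, smul_toC, ← toC_pow, ← toC_mul, ← toC_sub]
  congr 1
  ring

theorem cl_formB :
    cl 6 (1105920000 * (X ^ 3 * V3 dedekindEtaUnit * (K3 + 27 * H3) - K3 * H3 ^ 3))
    = List.replicate 6 0 := by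
  rw [cl_ofNat_mul, chk_B3]
  decide

/-- **Identity B at level 3.** -/
theorem B3 : X ^ 3 * V3 dedekindEtaUnit * (K3 + 27 * H3) = K3 * H3 ^ 3 := by
  have h := eq_zero_of_sturm3 isMF_formB _ qExp_formB cl_formB
  rcases mul_eq_zero.mp h with h | h
  · exact absurd h ofNat_ne_zero'
  · exact sub_eq_zero.mp h

end Fermat.Agent.GJ.Haupt3
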