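import Mathlib
import Fermat.Prelude.Def_ModularCurve_X0ModL
import Fermat.Agent.GJ.Haupt3.Sturm3
import Fermat.Agent.S28.CuspExp

/-!
# GATE-J / J1 / level 3 : the Hauptmodul `t₃` of `X₀(3)` over any commutative ring

`t3 R = q⁻¹ · (K3 / (H3 / X))` mapped to `R((q))`; `t₃ = q⁻¹ - 12 + 54 q - …`
(`= (η(z)/η(3z))¹²`).

* `jq_mul_t3_cube : jqModC R * t3 R ^ 3 = (t3 R + 27) * (t3 R + 243) ^ 3`
* `jq3_mul_t3 : qExpand R 3 (jqModC R) * t3 R = (t3 R + 27) * (t3 R + 3) ^ 3`
-/

set_option autoImplicit false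

noncomputable section

namespace Fermat.Agent.GJ.Haupt3

open PowerSeries ModularCurve HahnSeries
open Fermat.Agent.GJ.J1.Haupt

/-! ### the unit part -/

/-- `H3 / X` -/
def H3' : PowerSeries ℤ := PowerSeries.mk fun n => coeff (n + 1) H3

theorem coeff_zero_H3 : coeff 0 H3 = 0 := by
  rw [← cl_getD 6 H3 (by norm_num : 0 < 6), cl_H3]; rfl

theorem coeff_one_H3 : coeff 1 H3 = 1 := by
  rw [← cl_getD 6 H3 (by norm_num : 1 < 6), cl_H3]; rfl

theorem H3_eq : H3 = X * H3' := by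
  ext n
  cases n with
  | zero => rw [coeff_zero_H3, coeff_zero_X_mul]
  | succ n => rw [coeff_succ_X_mul, H3', coeff_mk]

theorem constantCoeff_H3' : constantCoeff H3' = 1 := by
  rw [← coeff_zero_eq_constantCoeff_apply, H3', coeff_mk]
  exact coeff_one_H3

/-- `(H3 / X)⁻¹` -/
def H3inv : PowerSeries ℤ := H3'.invOfUnit 1

theorem H3'_mul_inv : H3' * H3inv = 1 :=
  PowerSeries.mul_invOfUnit _ _ (by rw [constantCoeff_H3']; rfl)

/-- the unit part of `t₃`: `t₃ = q⁻¹ · t3u` -/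
def t3u : PowerSeries ℤ := K3 * H3inv

/-! ### passage to `R((q))` -/

variable (R : Type*) [CommRing R]

/-- `ℤ⟦X⟧ → R((q))` -/
def toL : PowerSeries ℤ →+* LaurentSeries R :=
  (HahnSeries.ofPowerSeries ℤ R).comp (PowerSeries.map (Int.castRingHom R))

theorem toL_X : toL R X = HahnSeries.single 1 1 := by
  rw [toL, RingHom.comp_apply, PowerSeries.map_X, HahnSeries.ofPowerSeries_X]

theorem single_neg_one_mul_toL_X : HahnSeries.single (-1 : ℤ) (1 : R) * toL R X = 1 := by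
  rw [toL_X, HahnSeries.single_mul_single]
  simp

theorem jqModC_eq_toL : jqModC R = HahnSeries.single (-1 : ℤ) 1 * toL R jNum := rfl

theorem qExpand_toL (f : PowerSeries ℤ) :
    qExpand R 3 (toL R f) = toL R (V3 f) := by
  rw [toL, RingHom.comp_apply, RingHom.comp_apply, Fermat.Agent.S28.qExpand_ofPowerSeries,
    PowerSeries.map_expand]

/-- **the Hauptmodul of `X₀(3)`** over `R` -/
def t3 : LaurentSeries R := HahnSeries.single (-1 : ℤ) 1 * toL R t3u

theorem t3_mul_H3 : t3 R * toL R H3 = toL R K3 := by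
  have h1 : toL R H3' * toL R H3inv = 1 := by rw [← map_mul, H3'_mul_inv, map_one]
  rw [t3, t3u, H3_eq, map_mul, map_mul]
  linear_combination (toL R K3 * toL R H3' * toL R H3inv) * single_neg_one_mul_toL_X R
    + toL R K3 * h1

/-- the two identities, abstractly -/
theorem haupt3_algebra {S : Type*} [CommRing S]
    (x xi e e' u ui u' ui' k h hi t j j3 : S)
    (hx : xi * x = 1) (hu : u * ui = 1) (hu' : u' * ui' = 1) (hh : h * hi = 1)
    (ht : t * h = k) (R1 : e = k + 243 * h) (R2 : e' = k + 3 * h)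
    (A : x * u * (k + 27 * h) = k ^ 3 * h) (B : x ^ 3 * u' * (k + 27 * h) = k * h ^ 3)
    (hj : j = xi * (e ^ 3 * ui)) (hj3 : j3 = xi ^ 3 * (e' ^ 3 * ui')) :
    j * t ^ 3 = (t + 27) * (t + 243) ^ 3 ∧ j3 * t = (t + 27) * (t + 3) ^ 3 := by
  have ht' : t = k * hi := by rw [← ht]; linear_combination (-t) * hh
  have cancel : ∀ a b : S, a * h ^ 4 = b * h ^ 4 → a = b := by
    intro a b hab
    have : a * (h * hi) ^ 4 = b * (h * hi) ^ 4 := by
      rw [mul_pow, ← mul_assoc, ← mul_assoc, hab]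
    rwa [hh, one_pow, mul_one, mul_one] at this
  constructor
  · apply cancel
    have e1 : j * t ^ 3 * h ^ 4 = j * (t * h) ^ 3 * h := by ring
    have e2 : (t + 27) * (t + 243) ^ 3 * h ^ 4 = (t * h + 27 * h) * (t * h + 243 * h) ^ 3 := by ring
    rw [e1, e2, ht, ← R1, hj]
    linear_combination (-(xi * e ^ 3 * ui)) * A + (e ^ 3 * (k + 27 * h) * u * ui) * hx
      + (e ^ 3 * (k + 27 * h)) * hu
  · apply cancel
    have e1 : j3 * t * h ^ 4 = j3 * (t * h) * h ^ 3 := by ring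
    have e2 : (t + 27) * (t + 3) ^ 3 * h ^ 4 = (t * h + 27 * h) * (t * h + 3 * h) ^ 3 := by ring
    rw [e1, e2, ht, ← R2, hj3]
    linear_combination (-(xi ^ 3 * e' ^ 3 * ui')) * B
      + (e' ^ 3 * (k + 27 * h) * u' * ui' * (xi ^ 2 * x ^ 2 + xi * x + 1)) * hx
      + (e' ^ 3 * (k + 27 * h)) * hu'

theorem haupt3_identities :
    jqModC R * t3 R ^ 3 = (t3 R + 27) * (t3 R + 243) ^ 3 ∧
      qExpand R 3 (jqModC R) * t3 R = (t3 R + 27) * (t3 R + 3) ^ 3 := by
  have hu : toL R dedekindEtaUnit * toL R dedekindEtaUnitInv = 1 := by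
    rw [← map_mul, dedekindEtaUnit_mul_inv, map_one]
  have hu' : toL R (V3 dedekindEtaUnit) * toL R (V3 dedekindEtaUnitInv) = 1 := by
    rw [← map_mul, ← map_mul, dedekindEtaUnit_mul_inv, map_one, map_one]
  have hh : toL R H3 * (HahnSeries.single (-1 : ℤ) 1 * toL R H3inv) = 1 := by
    have h1 : toL R H3' * toL R H3inv = 1 := by rw [← map_mul, H3'_mul_inv, map_one]
    rw [H3_eq, map_mul]
    linear_combination (toL R H3' * toL R H3inv) * single_neg_one_mul_toL_X R + h1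
  refine haupt3_algebra (toL R X) (HahnSeries.single (-1 : ℤ) 1) (toL R eisenstein4)
    (toL R (V3 eisenstein4)) (toL R dedekindEtaUnit) (toL R dedekindEtaUnitInv)
    (toL R (V3 dedekindEtaUnit)) (toL R (V3 dedekindEtaUnitInv)) (toL R K3) (toL R H3)
    (HahnSeries.single (-1 : ℤ) 1 * toL R H3inv) (t3 R) _ _
    (single_neg_one_mul_toL_X R) hu hu' hh (t3_mul_H3 R) ?_ ?_ ?_ ?_ ?_ ?_
  · rw [eisenstein4_eq_three, map_add, map_mul, map_ofNat]
  · rw [V3_eisenstein4, map_add, map_mul, map_ofNat]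
  · have := congrArg (toL R) A3
    simpa only [map_mul, map_add, map_pow, map_ofNat] using this
  · have := congrArg (toL R) B3
    simpa only [map_mul, map_add, map_pow, map_ofNat] using this
  · rw [jqModC_eq_toL, jNum, map_mul, map_pow]
  · rw [jqModC_eq_toL, map_mul, qExpand_toL, jNum, map_mul, map_mul, map_pow, map_pow,
      qExpand_single]
    congr 1
    rw [HahnSeries.single_pow]
    simp

/-- `j · t₃³ = (t₃ + 27)(t₃ + 243)³` over any commutative ring. -/
theorem jq_mul_t3_cube : jqModC R * t3 R ^ 3 = (t3 R + 27) * (t3 R + 243) ^ 3 :=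
  (haupt3_identities R).1

/-- `j(q³) · t₃ = (t₃ + 27)(t₃ + 3)³` over any commutative ring. -/
theorem jq3_mul_t3 : qExpand R 3 (jqModC R) * t3 R = (t3 R + 27) * (t3 R + 3) ^ 3 :=
  (haupt3_identities R).2

end Fermat.Agent.GJ.Haupt3
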