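import Mathlib
import Fermat.Prelude.Def_ModularCurve_X0ModL
import Fermat.Agent.GJ.Haupt3.Laurent3
import Fermat.Agent.GJ.HauptMem.Field

/-!
# GATE-J / J1 / level 3 : the Hauptmodul package for `X₀(3)` (the auxiliary level for `ℓ = 2`)

For every commutative ring `R`: `t3 R : LaurentSeries R`, `t3 R = q⁻¹ · (unit)`, functorial in `R`,
`j t³ = (t+27)(t+243)³`, `j(q³) t = (t+27)(t+3)³`.
For every field `K` (any characteristic): `t3 K ∈ modularFunctionFieldFullC K 3`,
`K⟮t3 K⟯ = modularFunctionFieldFullC K 3`, and `t3 K ∈ modularFunctionFieldFullC K N` for `3 ∣ N`.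
-/

set_option autoImplicit false

noncomputable section

namespace Fermat.Agent.GJ.Haupt3

open PowerSeries ModularCurve HahnSeries IntermediateField
open Fermat.Agent.GJ.J1.Haupt Fermat.Agent.GJ.HauptMem

variable (R : Type*) [CommRing R]

theorem constantCoeff_t3u : constantCoeff t3u = 1 := by
  have h1 : constantCoeff K3 = 1 := by
    rw [← coeff_zero_eq_constantCoeff_apply, ← cl_getD 6 K3 (by norm_num : 0 < 6), cl_K3]; rfl
  have h2 : constantCoeff H3inv = 1 := by
    have := congrArg (constantCoeff (R := ℤ)) H3'_mul_inv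
    rwa [map_mul, constantCoeff_H3', one_mul, map_one] at this
  rw [t3u, map_mul, h1, h2, one_mul]

/-- `t₃ = q⁻¹ + …` -/
theorem coeff_t3_neg_one : (t3 R).coeff (-1) = 1 := by
  have h := HahnSeries.coeff_single_mul_add (r := (1 : R)) (x := toL R t3u) (a := 0) (b := -1)
  rw [zero_add, one_mul] at h
  rw [t3, h, toL, RingHom.comp_apply]
  have := HahnSeries.ofPowerSeries_apply_coeff (Γ := ℤ)
    (PowerSeries.map (Int.castRingHom R) t3u) 0
  rw [Nat.cast_zero] at this
  rw [this, PowerSeries.coeff_map, coeff_zero_eq_constantCoeff_apply, constantCoeff_t3u]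
  simp

/-- `t₃` has a simple pole: no coefficients below `q⁻¹`. -/
theorem lowAt_t3 : LowAt (-1) (t3 R) := by
  intro k hk
  have h := HahnSeries.coeff_single_mul_add (r := (1 : R)) (x := toL R t3u) (a := k + 1) (b := -1)
  rw [show k + 1 + -1 = k by ring, one_mul] at h
  rw [t3, h, toL, RingHom.comp_apply]
  exact ofPowerSeries_coeff_of_neg _ (by omega)

theorem t3_ne_zero [Nontrivial R] : t3 R ≠ 0 := fun h => by
  have := coeff_t3_neg_one R
  rw [h, HahnSeries.coeff_zero] at this
  exact zero_ne_one this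

/-- functoriality in the coefficient ring -/
theorem coeffMap_t3 {S : Type*} [CommRing S] (f : R →+* S) : coeffMap f (t3 R) = t3 S := by
  rw [t3, map_mul, coeffMap_single, map_one, toL, RingHom.comp_apply, coeffMap_ofPowerSeries,
    ← RingHom.comp_apply (PowerSeries.map f) (PowerSeries.map (Int.castRingHom R)),
    ← PowerSeries.map_comp, RingHom.ext_int (f.comp (Int.castRingHom R)) (Int.castRingHom S)]
  rfl

variable (K : Type*) [Field K]

/-- **`t₃ ∈ F₃`** over any field. -/
theorem t3_mem_full : t3 K ∈ modularFunctionFieldFullC K 3 :=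
  mem_full_three (t3 K) (t3_ne_zero K) (jq_mul_t3_cube K) (jq3_mul_t3 K)

/-- **`K(t₃) = F₃`** over any field. -/
theorem adjoin_t3_eq_full : IntermediateField.adjoin K {t3 K} = modularFunctionFieldFullC K 3 :=
  adjoin_eq_full_three (t3 K) (t3_ne_zero K) (jq_mul_t3_cube K) (jq3_mul_t3 K)

/-- `t₃ ∈ F_N` whenever `3 ∣ N`. -/
theorem t3_mem_full_of_dvd (N : ℕ) [NeZero N] (hN : 3 ∣ N) :
    t3 K ∈ modularFunctionFieldFullC K N :=
  mem_full_of_three_dvd (t3 K) (t3_ne_zero K) (jq_mul_t3_cube K) (jq3_mul_t3 K) N hN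

/-- over `ℚ`, in the prelude's `modularFunctionFieldFull` -/
theorem t3_mem_full_rat (N : ℕ) [NeZero N] (hN : 3 ∣ N) :
    t3 ℚ ∈ modularFunctionFieldFull N := by
  rw [← modularFunctionFieldFullC_rat]
  exact t3_mem_full_of_dvd ℚ N hN

/-- `(j - 1728) t₃³ = (t₃² - 486 t₃ - 19683)²` -/
theorem jq_sub_1728_mul_t3_cube :
    (jqModC R - 1728) * t3 R ^ 3 = (t3 R ^ 2 - 486 * t3 R - 19683) ^ 2 :=
  sub_1728_three _ _ (jq_mul_t3_cube R)

end Fermat.Agent.GJ.Haupt3
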